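import Fermat.Agent.A2.Mod.H31.Deg
import Fermat.Agent.A2.Mod.H398.Conv

/-!
# S36 / MOD3 leaf FF, core (helper516)

`x = j · j_q · j_{q²}` at level `M q q`: transcendental over `E`, `F_{Mqq,E}` is finite over
`E(x)`, and `E` is algebraically closed in `F_{Mqq,E}`.  Vocabulary of `A2/Mod/Spec.lean` only
(the wrapper to `Mod3.LeafFF` is in `FF.lean`).
-/

set_option autoImplicit false
set_option linter.style.haveILetI false
set_option synthInstance.maxHeartbeats 400000
set_option maxHeartbeats 1600000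

noncomputable section

namespace Fermat.Agent.S36.Mod3.H516

open ModularCurve HahnSeries Polynomial IntermediateField
open Fermat.Agent.A2.Mod

/-! ## Abstract part: finiteness over `k(x)` by exchange -/

section Abs

variable {k F : Type} [Field k] [Field F] [Algebra k F]

/-- If `F` is finite over `k(y)` and `x ∈ F` is transcendental over `k`, then `F` is algebraic
over `k(x)`. -/
theorem isAlgebraic_adjoin_of_transcendental_h516 (x y : F) [FiniteDimensional k⟮y⟯ F]
    (hx : Transcendental k x) : Algebra.IsAlgebraic k⟮x⟯ F := by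
  open IntermediateField.algebraAdjoinAdjoin in
  haveI h1 : Algebra.IsAlgebraic (Algebra.adjoin k ({y} : Set F)) k⟮y⟯ := inferInstance
  haveI h2 : Algebra.IsAlgebraic k⟮y⟯ F := Algebra.IsAlgebraic.of_finite _ _
  haveI h3 : Algebra.IsAlgebraic (Algebra.adjoin k ({y} : Set F)) F :=
    Algebra.IsAlgebraic.trans (Algebra.adjoin k ({y} : Set F)) k⟮y⟯ F
  have h4 : Algebra.trdeg k F ≤ Cardinal.mk ({y} : Set F) :=
    Algebra.IsAlgebraic.trdeg_le_cardinalMk k ({y} : Set F)
  have h5 : Algebra.trdeg k F ≤ Cardinal.mk Unit := by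
    refine h4.trans ?_
    simp
  have h6 : AlgebraicIndependent k (fun _ : Unit => x) :=
    algebraicIndependent_unique_type_iff.mpr hx
  have h7 : IsTranscendenceBasis k (fun _ : Unit => x) :=
    AlgebraicIndependent.isTranscendenceBasis_of_trdeg_le_of_finite h6 h5
  have h8 := h7.isAlgebraic_field
  have h9 : Set.range (fun _ : Unit => x) = {x} := by
    ext z
    simp [eq_comm]
  rwa [h9] at h8

/-- If `F` is finite over `k(y)` and `x ∈ F` is transcendental over `k`, then `F` is finite
over `k(x)`. -/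
theorem finiteDimensional_adjoin_of_transcendental_h516 (x y : F) [FiniteDimensional k⟮y⟯ F]
    (hx : Transcendental k x) : FiniteDimensional k⟮x⟯ F := by
  haveI := isAlgebraic_adjoin_of_transcendental_h516 x y hx
  have hy : IsIntegral k⟮x⟯ y := Algebra.IsIntegral.isIntegral y
  -- the tower `k(x) ⊆ k(x)(y) ⊆ F`
  haveI hfin1 : FiniteDimensional k⟮x⟯ (k⟮x⟯)⟮y⟯ := adjoin.finiteDimensional hy
  have hle : k⟮y⟯ ≤ ((k⟮x⟯)⟮y⟯).restrictScalars k := by
    rw [adjoin_le_iff]
    rintro z hz
    rw [Set.mem_singleton_iff] at hz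
    subst hz
    exact mem_adjoin_simple_self (k⟮x⟯) z
  letI alg : Algebra k⟮y⟯ (k⟮x⟯)⟮y⟯ :=
    (RingHom.mk (MonoidHom.mk (OneHom.mk (fun a => (⟨a.1, hle a.2⟩ : (k⟮x⟯)⟮y⟯)) rfl)
      (fun _ _ => rfl)) rfl (fun _ _ => rfl)).toAlgebra
  haveI : IsScalarTower k⟮y⟯ (k⟮x⟯)⟮y⟯ F := IsScalarTower.of_algebraMap_eq (fun _ => rfl)
  haveI hfin2 : Module.Finite (k⟮x⟯)⟮y⟯ F := Module.Finite.of_restrictScalars_finite k⟮y⟯ _ F
  exact Module.Finite.trans (k⟮x⟯)⟮y⟯ F

end Abs

/-! ## The concrete statement -/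

section Concrete

variable (E : IntermediateField ℚ Qb) (M q : ℕ) [NeZero q]

/-- The `t`-expansion of `x = j · j_q · j_{q²}`. -/
theorem coe_x3_h516 (h1 : 1 ∣ M * q * q) (h2 : q ∣ M * q * q) (h3 : q * q ∣ M * q * q) :
    ((jE E (M * q * q) 1 h1 * jE E (M * q * q) q h2 * jE E (M * q * q) (q * q) h3 :
      FE E (M * q * q)) : LaurentSeries E) =
      jqModC E * qExpand E q (jqModC E) * qExpand E (q * q) (jqModC E) := by
  rw [MulMemClass.coe_mul, MulMemClass.coe_mul, H31.coe_jE, H31.coe_jE, H31.coe_jE,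
    qExpand_one_apply]

/-- `x` has a pole at `t = 0`. -/
theorem order_x3_neg_h516 :
    (jqModC E * qExpand E q (jqModC E) * qExpand E (q * q) (jqModC E)).order < 0 := by
  have h1 := H31.order_jqModC_neg E
  have h2 := H31.order_qExpand_jqModC_neg E q
  have h3 := H31.order_qExpand_jqModC_neg E (q * q)
  have hj : jqModC E ≠ 0 := by
    intro h
    rw [h] at h1
    simp at h1
  have hjq : qExpand E q (jqModC E) ≠ 0 := by
    intro h
    rw [h] at h2
    simp at h2
  have hjqq : qExpand E (q * q) (jqModC E) ≠ 0 := by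
    intro h
    rw [h] at h3
    simp at h3
  rw [HahnSeries.order_mul (mul_ne_zero hj hjq) hjqq, HahnSeries.order_mul hj hjq]
  omega

/-- **MOD3 leaf FF, core.**  `x = j j_q j_{q²}` is transcendental over `E`, `F_{Mqq,E}` is finite
over `E(x)`, and `E` is algebraically closed in `F_{Mqq,E}`. -/
theorem ffCore_h516 [NeZero M] (h1 : 1 ∣ M * q * q) (h2 : q ∣ M * q * q)
    (h3 : q * q ∣ M * q * q) :
    Transcendental E
        (jE E (M * q * q) 1 h1 * jE E (M * q * q) q h2 * jE E (M * q * q) (q * q) h3) ∧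
      FiniteDimensional
        (IntermediateField.adjoin E
          ({jE E (M * q * q) 1 h1 * jE E (M * q * q) q h2 * jE E (M * q * q) (q * q) h3} :
            Set (FE E (M * q * q))))
        (FE E (M * q * q)) ∧
      ∀ f : FE E (M * q * q), IsAlgebraic E f → f ∈ (algebraMap E (FE E (M * q * q))).range := by
  set x : FE E (M * q * q) :=
    jE E (M * q * q) 1 h1 * jE E (M * q * q) q h2 * jE E (M * q * q) (q * q) h3 with hx
  have hN : M * q * q ≠ 0 :=
    mul_ne_zero (mul_ne_zero (NeZero.ne M) (NeZero.ne q)) (NeZero.ne q)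
  have htr : Transcendental E x := by
    intro h
    have h2' : IsAlgebraic E ((x : FE E (M * q * q)) : LaurentSeries E) :=
      (isAlgebraic_algHom_iff (FE E (M * q * q)).val Subtype.val_injective).mpr h
    rw [hx, coe_x3_h516] at h2'
    exact H31.transcendental_of_order_neg (order_x3_neg_h516 E q) h2'
  refine ⟨htr, ?_, ?_⟩
  · -- finiteness, by exchange with `j`
    set y : FE E (M * q * q) := jE E (M * q * q) 1 h1 with hy
    have hchar : ∀ p : ℕ, p.Prime → p ∣ M * q * q → ((p : ℕ) : E) ≠ 0 :=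
      fun p hp _ => Nat.cast_ne_zero.mpr hp.ne_zero
    have hcoe : ((y : FE E (M * q * q)) : LaurentSeries E) = jqModC E := by
      rw [hy, H31.coe_jE, qExpand_one_apply]
    have hrel : (E⟮((y : FE E (M * q * q)) : LaurentSeries E)⟯).relfinrank (FE E (M * q * q))
        ≠ 0 := by
      rw [hcoe, H31.FE_eq_fullC, H31.relfinrank_j_fullC E (M * q * q) hN hchar]
      exact (S28.H988.dedekindPsi_pos (M * q * q) hN).ne'
    haveI : FiniteDimensional E⟮y⟯ (FE E (M * q * q)) :=
      H398.finiteDimensional_adjoin_simple_of_relfinrank_ne_zero (FE E (M * q * q)) y hrel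
    exact finiteDimensional_adjoin_of_transcendental_h516 x y htr
  · intro f hf
    have h2' : IsAlgebraic E ((f : FE E (M * q * q)) : LaurentSeries E) :=
      (isAlgebraic_algHom_iff (FE E (M * q * q)).val Subtype.val_injective).mpr hf
    obtain ⟨c, hc⟩ := H31.laurent_const_of_isAlgebraic _ h2'
    exact ⟨c, Subtype.ext hc.symm⟩

end Concrete

end Fermat.Agent.S36.Mod3.H516

end
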