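import Fermat.Agent.S36.Mod3.Spec
import Fermat.Agent.S36.Mod3.H516.FFCore

/-!
# S36 / MOD3 leaf FF (helper516): `Mod3.LeafFF`, VERBATIM

`x = j · j_q · j_{q²}` is transcendental over `E`, `F_{Mqq,E}` is finite over `E(x)`, and `E` is
algebraically closed in `F_{Mqq,E}`.  Unconditional (the hypotheses `q` prime, `q ∤ M` are not
used).
-/

set_option autoImplicit false
set_option synthInstance.maxHeartbeats 400000
set_option maxHeartbeats 1600000

noncomputable section

namespace Fermat.Agent.S36.Mod3.H516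

open Fermat.Agent.S36.Mod3

/-- **MOD3 leaf FF.** -/
theorem leafFF : LeafFF := by
  intro E M q _ _ _ _ _
  obtain ⟨h1, h2, h3⟩ := ffCore_h516 E M q (one_dvd _) (Dvd.intro_left (M * q) rfl)
    ⟨M, by ring⟩
  exact ⟨h1, h2, h3⟩

example : Fermat.Agent.S36.Mod3.LeafFF := leafFF

end Fermat.Agent.S36.Mod3.H516

end
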